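/-
S59lib / R7b / G1 / Tame2  (helper4) — Project I, item R7b (G1): local-global compatibility "in families" at the prime `2`.

`A` a local ring, `𝔪`-adically separated, `p ∈ 𝔪` (`p` odd, in the application `p = 3`), `r : G_ℚ → M₂(A)` an adically
continuous matrix representation, residually trivial on the inertia group at the standard place over `v ≠ p`,
`Σ = r (globGenAt v p)`, `Φ = r (globFrobAt v)` the tame generators of `S43lib/B3`.

* `trace_gen_pow` : `tr (Σ ^ v) = tr Σ` (from `Φ Σ = Σ ^ v Φ`);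
* `trace_gen_two` : for `v = 2`, `det Σ = 1`: `(tr Σ - 2) (tr Σ + 1) = 0`;
* `sub_one_sq_of_trace_two` : `tr Σ = 2`, `det Σ = 1` ⇒ `(Σ - 1)² = 0`;
* `trace_det_inertia_of_trace_two` : `tr Σ = 2`, `det Σ = 1` ⇒ every `s` in the inertia group has `tr r(s) = 2`, `det r(s) = 1`;
* for a based `ρ : GaloisRepAdic A` with cyclotomic determinant, residually unramified at `2`:
  `isUnipotentOnInertiaAt_two_of_trace` (`tr ρ(Σ) = 2` ⇒ unipotent on inertia at `2`),
  `trace_globGen_two_eq_neg_one` (`A` a domain, `ρ` NOT unipotent on inertia at `2` ⇒ `tr ρ(Σ) = -1`).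
-/
import Mathlib
import Fermat.Agent.S43lib.B3.AdicTame
import Fermat.Agent.S43lib.B3.UnramOfGen

set_option autoImplicit false
set_option linter.unusedSectionVars false
set_option linter.unusedVariables false
set_option linter.style.haveILetI false

noncomputable section

namespace Fermat.Agent.S59lib.R7b.G1

open IsLocalRing Fermat.Agent.TeamA.Rep Fermat.Agent.S43lib.B3 ExtCitation
open scoped Pointwise

local notation "Qb" => AlgebraicClosure ℚ
local notation "GQ" => (AlgebraicClosure ℚ ≃ₐ[ℚ] AlgebraicClosure ℚ)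

/-! ### `2 × 2` matrices -/

section Mat2

variable {A : Type*} [CommRing A]

/-- Cayley–Hamilton for `2 × 2` matrices -/
theorem sq_eq_trace_smul_sub (Y : Matrix (Fin 2) (Fin 2) A) :
    Y ^ 2 = Y.trace • Y - Y.det • (1 : Matrix (Fin 2) (Fin 2) A) := by
  ext i j
  fin_cases i <;> fin_cases j <;>
    simp [pow_two, Matrix.mul_apply, Fin.sum_univ_two, Matrix.trace_fin_two, Matrix.det_fin_two] <;> ring

theorem trace_sq (Y : Matrix (Fin 2) (Fin 2) A) : (Y ^ 2).trace = Y.trace ^ 2 - 2 * Y.det := by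
  rw [sq_eq_trace_smul_sub, Matrix.trace_sub, Matrix.trace_smul, Matrix.trace_smul, Matrix.trace_one]
  simp only [Fintype.card_fin, smul_eq_mul]
  ring

theorem sub_one_sq (Y : Matrix (Fin 2) (Fin 2) A) (ht : Y.trace = 2) (hd : Y.det = 1) :
    (Y - 1) ^ 2 = 0 := by
  have h := sq_eq_trace_smul_sub Y
  rw [ht, hd, one_smul] at h
  have : (Y - 1) ^ 2 = Y ^ 2 - (2 : A) • Y + 1 := by
    rw [pow_two, pow_two, sub_mul, mul_sub, mul_one, one_mul, two_smul]
    abel
  rw [this, h]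
  abel

/-- powers of a matrix with `tr = 2`, `det = 1` -/
theorem trace_det_pow (Y : Matrix (Fin 2) (Fin 2) A) (ht : Y.trace = 2) (hd : Y.det = 1) (j : ℕ) :
    (Y ^ j).trace = 2 ∧ (Y ^ j).det = 1 := by
  refine ⟨?_, by rw [Matrix.det_pow, hd, one_pow]⟩
  have hN := sub_one_sq Y ht hd
  have hpow : Y ^ j = 1 + (j : A) • (Y - 1) := by
    induction j with
    | zero => simp
    | succ k ih =>
      rw [pow_succ, ih]
      have h1 : (Y - 1) * Y = Y - 1 := by
        have : (Y - 1) * Y = (Y - 1) ^ 2 + (Y - 1) := by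
          rw [pow_two, mul_sub, mul_one]; abel
        rw [this, hN, zero_add]
      rw [add_mul, one_mul, Matrix.smul_mul, h1]
      push_cast
      rw [add_smul, one_smul]
      abel
  rw [hpow, Matrix.trace_add, Matrix.trace_smul, Matrix.trace_sub, ht, Matrix.trace_one]
  simp only [Fintype.card_fin, smul_eq_mul]
  push_cast
  ring

end Mat2

/-! ### the tame generator at `v` -/

section Tame

variable {A : Type} [CommRing A] [IsLocalRing A] [IsHausdorff (maximalIdeal A) A]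
variable (p : ℕ) [hp : Fact p.Prime]

/-- `tr (Σ ^ v) = tr Σ` -/
theorem trace_gen_pow (hpA : (p : A) ∈ maximalIdeal A)
    (r : GQ →* Matrix (Fin 2) (Fin 2) A) (hr : MatCont r) (v : Nat.Primes) (hpv : p ≠ (v : ℕ))
    (hur : ∀ s ∈ (primeLocalPlace v).inertiaSubgroupIn ℚ, EntIn (maximalIdeal A) (r s - 1)) :
    (r (globGenAt v p) ^ (v : ℕ)).trace = (r (globGenAt v p)).trace := by
  have h := tame_relation_of_matCont p hpA r hr v hpv hur
  have h1 : r (globFrobAt v) * r (globFrobAt v)⁻¹ = 1 := by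
    rw [← map_mul, mul_inv_cancel, map_one]
  have h2 : r (globFrobAt v)⁻¹ * r (globFrobAt v) = 1 := by
    rw [← map_mul, inv_mul_cancel, map_one]
  calc (r (globGenAt v p) ^ (v : ℕ)).trace
      = (r (globGenAt v p) ^ (v : ℕ) * (r (globFrobAt v) * r (globFrobAt v)⁻¹)).trace := by
        rw [h1, mul_one]
    _ = ((r (globFrobAt v) * r (globGenAt v p)) * r (globFrobAt v)⁻¹).trace := by
        rw [← mul_assoc, h]
    _ = (r (globFrobAt v)⁻¹ * (r (globFrobAt v) * r (globGenAt v p))).trace :=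
        Matrix.trace_mul_comm _ _
    _ = (r (globGenAt v p)).trace := by rw [← mul_assoc, h2, one_mul]

/-- at `v = 2`: `(tr Σ - 2) (tr Σ + 1) = 0` -/
theorem trace_gen_two (hpA : (p : A) ∈ maximalIdeal A)
    (r : GQ →* Matrix (Fin 2) (Fin 2) A) (hr : MatCont r) (v : Nat.Primes) (hpv : p ≠ (v : ℕ))
    (hv : (v : ℕ) = 2)
    (hur : ∀ s ∈ (primeLocalPlace v).inertiaSubgroupIn ℚ, EntIn (maximalIdeal A) (r s - 1))
    (hdet : (r (globGenAt v p)).det = 1) :
    ((r (globGenAt v p)).trace - 2) * ((r (globGenAt v p)).trace + 1) = 0 := by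
  have h := trace_gen_pow p hpA r hr v hpv hur
  rw [hv, trace_sq, hdet] at h
  linear_combination h

/-- if `tr Σ = 2`, `det Σ = 1` then every element of the inertia group has trace `2` and determinant `1` -/
theorem trace_det_inertia_of_trace_two (hpA : (p : A) ∈ maximalIdeal A)
    (r : GQ →* Matrix (Fin 2) (Fin 2) A) (hr : MatCont r) (v : Nat.Primes) (hpv : p ≠ (v : ℕ))
    (hur : ∀ s ∈ (primeLocalPlace v).inertiaSubgroupIn ℚ, EntIn (maximalIdeal A) (r s - 1))
    (ht : (r (globGenAt v p)).trace = 2) (hdet : (r (globGenAt v p)).det = 1) :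
    ∀ s ∈ (primeLocalPlace v).inertiaSubgroupIn ℚ, (r s).trace = 2 ∧ (r s).det = 1 := by
  intro s hs
  have key : ∀ n : ℕ, (r s).trace - 2 ∈ maximalIdeal A ^ n ∧ (r s).det - 1 ∈ maximalIdeal A ^ n := by
    intro n
    obtain ⟨-, -, h3⟩ := tame_mod_pow p hpA r hr v hpv hur n
    obtain ⟨j, hj⟩ := h3 s hs
    have h4 : redMat A n (r s) = redMat A n (r (globGenAt v p) ^ j) := by
      have := congrArg Units.val hj
      rw [redHom_val, Units.val_pow_eq_pow_val, redHom_val, ← map_pow] at this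
      exact this
    obtain ⟨h5, h6⟩ := trace_det_pow (r (globGenAt v p)) ht hdet j
    constructor
    · have h7 := (redMat_eq_iff n _ _).mp h4
      have : (r s).trace - 2 = (r s - r (globGenAt v p) ^ j).trace := by
        rw [Matrix.trace_sub, h5]
      rw [this, Matrix.trace_fin_two]
      exact Ideal.add_mem _ (h7 0 0) (h7 1 1)
    · have h7 := congrArg Matrix.det h4
      rw [RingHom.mapMatrix_apply, RingHom.mapMatrix_apply] at h7
      have h8 := (RingHom.map_det (Ideal.Quotient.mk (maximalIdeal A ^ n)) (r s)).trans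
        (h7.trans (RingHom.map_det (Ideal.Quotient.mk (maximalIdeal A ^ n))
          (r (globGenAt v p) ^ j)).symm)
      rw [h6, Ideal.Quotient.eq] at h8
      exact h8
  constructor
  · rw [← sub_eq_zero]
    apply IsHausdorff.haus (inferInstance : IsHausdorff (maximalIdeal A) A)
    intro n
    rw [SModEq.zero, smul_eq_mul, Ideal.mul_top]
    exact (key n).1
  · rw [← sub_eq_zero]
    apply IsHausdorff.haus (inferInstance : IsHausdorff (maximalIdeal A) A)
    intro n
    rw [SModEq.zero, smul_eq_mul, Ideal.mul_top]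
    exact (key n).2

end Tame

/-! ### based adic representations -/

section Rep

variable {A : Type} [CommRing A] [IsLocalRing A] [IsHausdorff (maximalIdeal A) A]
variable (p : ℕ) [hp : Fact p.Prime]

/-- residually unramified at `v`: on the inertia group `ρ(s) ≡ 1` modulo `𝔪` -/
theorem entIn_of_residual_unramified (ρ : GaloisRepAdic A) (b : Module.Basis (Fin 2) A ρ.V)
    (v : Nat.Primes) (hur : ρ.residual.IsUnramifiedAt (v : ℕ)) :
    ∀ s ∈ (primeLocalPlace v).inertiaSubgroupIn ℚ,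
      EntIn (maximalIdeal A) (matOfHom ρ b s - 1) := by
  intro s hs i j
  have h1 : matOfRes ρ.residual (residualBasis ρ b) s = 1 := by
    unfold matOfRes
    rw [hur _ (Fermat.Agent.S56lib.TWSel.primeLocalPlace_liesOverPrime v) s hs]
    exact LinearMap.toMatrix_one _
  rw [matOfRes_residual] at h1
  have h2 := congrFun (congrFun h1 i) j
  rw [Matrix.map_apply] at h2
  rw [matOfHom_apply, Matrix.sub_apply, ← residue_eq_zero_iff, map_sub, h2]
  by_cases hij : i = j
  · subst hij; simp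
  · simp [hij]

/-- the characteristic polynomial of `ρ(σ)` from the trace and determinant of its matrix -/
theorem charpoly_eq_of_trace_det (ρ : GaloisRepAdic A) (b : Module.Basis (Fin 2) A ρ.V) (σ : GQ)
    (ht : (matOf ρ b σ).trace = 2) (hd : (matOf ρ b σ).det = 1) :
    LinearMap.charpoly (ρ.ρ σ) = (Polynomial.X - 1) ^ 2 := by
  have h1 : (matOf ρ b σ).charpoly = LinearMap.charpoly (ρ.ρ σ) :=
    LinearMap.charpoly_toMatrix (ρ.ρ σ) b
  rw [← h1, Matrix.charpoly_fin_two, ht, hd]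
  simp only [map_ofNat, map_one]
  ring

/-- **`tr ρ(Σ_v) = 2` ⇒ `ρ` is unipotent on the inertia groups at `v`** (`ρ ≡ 1` modulo `𝔪` on the inertia group of the
standard place over `v ≠ p`, cyclotomic determinant) -/
theorem isUnipotentOnInertiaAt_of_trace' (hpA : (p : A) ∈ maximalIdeal A)
    (ρ : GaloisRepAdic A) (b : Module.Basis (Fin 2) A ρ.V) (v : Nat.Primes) (hpv : p ≠ (v : ℕ))
    (hdet : ρ.DetIsCyclotomic p)
    (hent : ∀ s ∈ (primeLocalPlace v).inertiaSubgroupIn ℚ,
      EntIn (maximalIdeal A) (matOfHom ρ b s - 1))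
    (ht : (matOf ρ b (globGenAt v p)).trace = 2) : ρ.IsUnipotentOnInertiaAt (v : ℕ) := by
  have hd := det_matOf_globGenAt p ρ hdet b v hpv
  have h0 := trace_det_inertia_of_trace_two p hpA (matOfHom ρ b) (matCont_matOf ρ b) v hpv
    hent ht hd
  intro P hP σ hσ
  obtain ⟨g, hg⟩ : ∃ g : GQ, P = g • primeLocalPlace v :=
    Fermat.Agent.S56lib.TWSel.exists_smul_eq_of_liesOverPrime v.2
      (Fermat.Agent.S56lib.TWSel.primeLocalPlace_liesOverPrime v) hP
  have h1 : g⁻¹ * σ * g⁻¹⁻¹ ∈ (g⁻¹ • P).inertiaSubgroupIn ℚ :=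
    Fermat.Agent.S56lib.TWSel.conj_mem_inertia hσ
  rw [inv_inv, hg, inv_smul_smul] at h1
  obtain ⟨h2, h3⟩ := h0 _ h1
  rw [matOfHom_apply] at h2 h3
  have h4 : σ = g * (g⁻¹ * σ * g) * g⁻¹ := by group
  have hG : matOf ρ b g * matOf ρ b g⁻¹ = 1 := by rw [← matOf_mul, mul_inv_cancel, matOf_one]
  have hG' : matOf ρ b g⁻¹ * matOf ρ b g = 1 := by rw [← matOf_mul, inv_mul_cancel, matOf_one]
  refine charpoly_eq_of_trace_det ρ b σ ?_ ?_
  · rw [h4, matOf_mul, matOf_mul, Matrix.trace_mul_comm, ← mul_assoc, hG', one_mul, h2]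
  · rw [h4, matOf_mul, matOf_mul, Matrix.det_mul, Matrix.det_mul, h3, mul_one, ← Matrix.det_mul, hG,
      Matrix.det_one]

theorem isUnipotentOnInertiaAt_of_trace (hpA : (p : A) ∈ maximalIdeal A)
    (ρ : GaloisRepAdic A) (b : Module.Basis (Fin 2) A ρ.V) (v : Nat.Primes) (hpv : p ≠ (v : ℕ))
    (hdet : ρ.DetIsCyclotomic p) (hur : ρ.residual.IsUnramifiedAt (v : ℕ))
    (ht : (matOf ρ b (globGenAt v p)).trace = 2) : ρ.IsUnipotentOnInertiaAt (v : ℕ) :=
  isUnipotentOnInertiaAt_of_trace' p hpA ρ b v hpv hdet (entIn_of_residual_unramified ρ b v hur) ht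

/-- at `v = 2`: `(tr ρ(Σ) - 2)(tr ρ(Σ) + 1) = 0` -/
theorem trace_globGen_two_mul' (hpA : (p : A) ∈ maximalIdeal A)
    (ρ : GaloisRepAdic A) (b : Module.Basis (Fin 2) A ρ.V) (v : Nat.Primes) (hpv : p ≠ (v : ℕ))
    (hv : (v : ℕ) = 2)
    (hdet : ρ.DetIsCyclotomic p)
    (hent : ∀ s ∈ (primeLocalPlace v).inertiaSubgroupIn ℚ,
      EntIn (maximalIdeal A) (matOfHom ρ b s - 1)) :
    ((matOf ρ b (globGenAt v p)).trace - 2) * ((matOf ρ b (globGenAt v p)).trace + 1) = 0 :=
  trace_gen_two p hpA (matOfHom ρ b) (matCont_matOf ρ b) v hpv hv hent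
    (det_matOf_globGenAt p ρ hdet b v hpv)

theorem trace_globGen_two_mul (hpA : (p : A) ∈ maximalIdeal A)
    (ρ : GaloisRepAdic A) (b : Module.Basis (Fin 2) A ρ.V) (v : Nat.Primes) (hpv : p ≠ (v : ℕ))
    (hv : (v : ℕ) = 2)
    (hdet : ρ.DetIsCyclotomic p) (hur : ρ.residual.IsUnramifiedAt (v : ℕ)) :
    ((matOf ρ b (globGenAt v p)).trace - 2) * ((matOf ρ b (globGenAt v p)).trace + 1) = 0 :=
  trace_globGen_two_mul' p hpA ρ b v hpv hv hdet (entIn_of_residual_unramified ρ b v hur)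

/-- **`A` a domain, `ρ` NOT unipotent on inertia at `2` ⇒ `tr ρ(Σ₂) = -1`** -/
theorem trace_globGen_two_eq_neg_one' [IsDomain A] (hpA : (p : A) ∈ maximalIdeal A)
    (ρ : GaloisRepAdic A) (b : Module.Basis (Fin 2) A ρ.V) (v : Nat.Primes) (hpv : p ≠ (v : ℕ))
    (hv : (v : ℕ) = 2)
    (hdet : ρ.DetIsCyclotomic p)
    (hent : ∀ s ∈ (primeLocalPlace v).inertiaSubgroupIn ℚ,
      EntIn (maximalIdeal A) (matOfHom ρ b s - 1))
    (hnu : ¬ ρ.IsUnipotentOnInertiaAt (v : ℕ)) :
    (matOf ρ b (globGenAt v p)).trace = -1 := by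
  rcases mul_eq_zero.mp (trace_globGen_two_mul' p hpA ρ b v hpv hv hdet hent) with h | h
  · exact absurd (isUnipotentOnInertiaAt_of_trace' p hpA ρ b v hpv hdet hent (sub_eq_zero.mp h)) hnu
  · exact eq_neg_of_add_eq_zero_left h

theorem trace_globGen_two_eq_neg_one [IsDomain A] (hpA : (p : A) ∈ maximalIdeal A)
    (ρ : GaloisRepAdic A) (b : Module.Basis (Fin 2) A ρ.V) (v : Nat.Primes) (hpv : p ≠ (v : ℕ))
    (hv : (v : ℕ) = 2)
    (hdet : ρ.DetIsCyclotomic p) (hur : ρ.residual.IsUnramifiedAt (v : ℕ))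
    (hnu : ¬ ρ.IsUnipotentOnInertiaAt (v : ℕ)) :
    (matOf ρ b (globGenAt v p)).trace = -1 :=
  trace_globGen_two_eq_neg_one' p hpA ρ b v hpv hv hdet (entIn_of_residual_unramified ρ b v hur) hnu

/-- `(ρ(Σ) - 1)² = 0` as soon as `ρ` is unipotent on inertia at `v` (Cayley–Hamilton) -/
theorem sub_one_sq_of_isUnipotent (ρ : GaloisRepAdic A) (b : Module.Basis (Fin 2) A ρ.V)
    (v : Nat.Primes) (hu : ρ.IsUnipotentOnInertiaAt (v : ℕ)) :
    (matOf ρ b (globGenAt v p) - 1) ^ 2 = 0 := by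
  have h1 := hu _ (Fermat.Agent.S56lib.TWSel.primeLocalPlace_liesOverPrime v) _
    (globGenAt_mem_inertia v p)
  have h2 : (matOf ρ b (globGenAt v p)).charpoly = LinearMap.charpoly (ρ.ρ (globGenAt v p)) :=
    LinearMap.charpoly_toMatrix (ρ.ρ (globGenAt v p)) b
  have h3 := Matrix.aeval_self_charpoly (matOf ρ b (globGenAt v p))
  rw [h2, h1] at h3
  simpa using h3

end Rep

end Fermat.Agent.S59lib.R7b.G1
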